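import Mathlib

set_option autoImplicit false

namespace Fermat.Agent.S54

open Polynomial

variable {L : Type*} [Field L]

/-- Integral elements lie in every valuation subring. -/
theorem mem_valuationSubring_of_isIntegral (V : ValuationSubring L) {x : L}
    (hx : IsIntegral ℤ x) : x ∈ V := by
  have h1 : IsIntegral V x := hx.tower_top
  obtain ⟨y, hy⟩ := (IsIntegrallyClosed.isIntegral_iff (R := V) (K := L)).mp h1
  rw [← hy]
  exact y.2

theorem mul_mem_nonunits_of_mem (V : ValuationSubring L) {a x : L}
    (ha : a ∈ V.nonunits) (hx : x ∈ V) : a * x ∈ V.nonunits := by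
  rw [ValuationSubring.mem_nonunits_iff] at ha ⊢
  have hx' : V.valuation x ≤ 1 := (V.valuation_le_one_iff x).mpr hx
  rw [map_mul]
  exact mul_lt_one_of_lt_of_le ha hx'

theorem horner_aux (V : ValuationSubring L) (x : L) (hx : x ∈ V) :
    ∀ (n : ℕ) (f : (integralClosure ℤ L)[X]), f.natDegree ≤ n → aeval x f = 0 →
      (∃ i, ((f.coeff i : integralClosure ℤ L) : L) ∉ V.nonunits) →
      ∃ s : integralClosure ℤ L, (s : L) ∉ V.nonunits ∧ IsIntegral ℤ ((s : L) * x) := by
  intro n
  induction n with
  | zero =>
    intro f hdeg hf ⟨i, hi⟩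
    exfalso
    rw [Polynomial.eq_C_of_natDegree_le_zero hdeg] at hf hi
    rw [aeval_C] at hf
    apply hi
    rw [coeff_C]
    split_ifs with h0
    · have : ((f.coeff 0 : integralClosure ℤ L) : L) = 0 := hf
      rw [this]
      exact V.nonunits.zero_mem
    · exact V.nonunits.zero_mem
  | succ n ih =>
    intro f hdeg hf ⟨i, hi⟩
    by_cases hlt : f.natDegree ≤ n
    · exact ih f hlt hf ⟨i, hi⟩
    have hdeg' : f.natDegree = n + 1 := by omega
    have hint : IsIntegral (integralClosure ℤ L) (f.leadingCoeff • x) :=
      isIntegral_leadingCoeff_smul f x hf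
    have hint' : IsIntegral ℤ ((f.leadingCoeff : L) * x) := by
      have := isIntegral_trans (R := ℤ) (A := integralClosure ℤ L) _ hint
      rwa [Algebra.smul_def] at this
    by_cases ha : ((f.leadingCoeff : integralClosure ℤ L) : L) ∈ V.nonunits
    · -- reduce the degree
      let r : integralClosure ℤ L := ⟨(f.leadingCoeff : L) * x, hint'⟩
      have hr : (r : L) ∈ V.nonunits := mul_mem_nonunits_of_mem V ha hx
      refine ih (f.eraseLead + monomial n r) ?_ ?_ ?_
      · refine natDegree_add_le_of_degree_le ?_ (natDegree_monomial_le _)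
        have := eraseLead_natDegree_le f
        omega
      · have h1 := eraseLead_add_monomial_natDegree_leadingCoeff f
        have h2 : aeval x f = aeval x f.eraseLead +
            (f.leadingCoeff : L) * x ^ (n + 1) := by
          conv_lhs => rw [← h1]
          rw [map_add, aeval_monomial, hdeg']
          rfl
        rw [map_add, aeval_monomial]
        rw [h2] at hf
        rw [← hf]
        congr 1
        change (f.leadingCoeff : L) * x * x ^ n = _
        ring
      · have hine : i ≠ f.natDegree := by
          rintro rfl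
          exact hi ha
        refine ⟨i, ?_⟩
        rw [coeff_add, eraseLead_coeff_of_ne _ hine, coeff_monomial]
        split_ifs with hni
        · intro hmem
          apply hi
          have := V.nonunits.sub_mem hmem hr
          simpa using this
        · simpa using hi
    · exact ⟨f.leadingCoeff, ha, hint'⟩

theorem intCast_not_mem_nonunits (V : ValuationSubring L) {ℓ : ℕ} (hℓ : ℓ.Prime)
    (hℓV : (ℓ : L) ∈ V.nonunits) {a : ℤ} (ha : ¬ (ℓ : ℤ) ∣ a) : (a : L) ∉ V.nonunits := by
  intro hmem
  have hcop : IsCoprime (ℓ : ℤ) a := by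
    rw [Int.isCoprime_iff_gcd_eq_one]
    have h1 : (Int.gcd (ℓ : ℤ) a) ∣ ℓ := by
      have := Int.gcd_dvd_left (ℓ : ℤ) a
      exact_mod_cast this
    rcases (Nat.dvd_prime hℓ).mp h1 with h | h
    · exact h
    · exfalso
      apply ha
      have := Int.gcd_dvd_right (ℓ : ℤ) a
      rwa [h] at this
  obtain ⟨u, v, huv⟩ := hcop
  have h1 : ((u : L) * (ℓ : L) + (v : L) * (a : L)) = 1 := by
    have := congrArg (Int.cast : ℤ → L) huv
    push_cast at this
    exact this
  have hu : (u : L) ∈ V := mem_valuationSubring_of_isIntegral V (isIntegral_algebraMap (R := ℤ) (x := u))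
  have hv : (v : L) ∈ V := mem_valuationSubring_of_isIntegral V (isIntegral_algebraMap (R := ℤ) (x := v))
  have h2 : (1 : L) ∈ V.nonunits := by
    rw [← h1]
    refine V.nonunits.add_mem ?_ ?_
    · rw [mul_comm]; exact mul_mem_nonunits_of_mem V hℓV hu
    · rw [mul_comm]; exact mul_mem_nonunits_of_mem V hmem hv
  rw [ValuationSubring.mem_nonunits_iff, map_one] at h2
  exact lt_irrefl _ h2

/-- A valuation subring over a rational prime is the localisation of the ring of algebraic
integers: every element of it that is algebraic over `ℤ` has an integral denominator which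
is a unit of the valuation subring. -/
theorem exists_integral_mul (V : ValuationSubring L) [CharZero L] {ℓ : ℕ} (hℓ : ℓ.Prime)
    (hℓV : (ℓ : L) ∈ V.nonunits) {x : L} (hx : x ∈ V) (hxalg : IsAlgebraic ℤ x) :
    ∃ s : L, IsIntegral ℤ s ∧ s ∉ V.nonunits ∧ IsIntegral ℤ (s * x) := by
  obtain ⟨p, hp0, hpx⟩ := hxalg
  -- pass to the primitive part
  have hc : p.content ≠ 0 := fun h => hp0 (content_eq_zero_iff.mp h)
  have hpx' : aeval x p.primPart = 0 := by
    have h1 := eq_C_content_mul_primPart p
    rw [h1, map_mul, aeval_C] at hpx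
    rcases mul_eq_zero.mp hpx with h | h
    · exfalso
      apply hc
      have : ((p.content : ℤ) : L) = 0 := by simpa using h
      exact_mod_cast this
    · exact h
  have hprim : p.primPart.IsPrimitive := isPrimitive_primPart p
  have hex : ∃ i, ¬ (ℓ : ℤ) ∣ p.primPart.coeff i := by
    by_contra hall
    push Not at hall
    have h1 : C (ℓ : ℤ) ∣ p.primPart := (C_dvd_iff_dvd_coeff _ _).mpr hall
    have h2 := hprim _ h1
    have h3 : (ℓ : ℤ).natAbs = 1 := Int.isUnit_iff_natAbs_eq.mp h2
    have h4 : ℓ = 1 := by simpa using h3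
    exact hℓ.one_lt.ne' h4
  obtain ⟨i, hi⟩ := hex
  set f : (integralClosure ℤ L)[X] := p.primPart.map (algebraMap ℤ (integralClosure ℤ L)) with hf
  have hfx : aeval x f = 0 := by
    rw [hf, aeval_map_algebraMap]
    exact hpx'
  have hcoeff : ∃ i, ((f.coeff i : integralClosure ℤ L) : L) ∉ V.nonunits := by
    refine ⟨i, ?_⟩
    rw [hf, coeff_map]
    have : ((algebraMap ℤ (integralClosure ℤ L) (p.primPart.coeff i) : integralClosure ℤ L) : L)
        = ((p.primPart.coeff i : ℤ) : L) := by
      simp
    rw [this]
    exact intCast_not_mem_nonunits V hℓ hℓV hi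
  obtain ⟨s, hs1, hs2⟩ := horner_aux V x hx f.natDegree f le_rfl hfx hcoeff
  exact ⟨s, s.2, hs1, hs2⟩

end Fermat.Agent.S54
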