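import Mathlib
import Fermat.Prelude.Def_EllipticCurve_FrobeniusTrace
import Fermat.Agent.S54.ValLocal

set_option autoImplicit false
set_option linter.style.haveILetI false

namespace Fermat.Agent.S54

open Polynomial

theorem isAlgebraic_Qbar : Algebra.IsAlgebraic ℚ (AlgebraicClosure ℚ) :=
  AlgebraicClosure.isAlgebraic ℚ

theorem isAlgClosure_Qbar : IsAlgClosure ℚ (AlgebraicClosure ℚ) :=
  AlgebraicClosure.instIsAlgClosure ℚ

theorem isGalois_Qbar : IsGalois ℚ (AlgebraicClosure ℚ) :=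
  haveI := isAlgClosure_Qbar
  IsAlgClosure.isGalois ℚ (AlgebraicClosure ℚ)

attribute [local instance] isAlgebraic_Qbar isAlgClosure_Qbar isGalois_Qbar

theorem isAlgebraic_int_Qbar (x : AlgebraicClosure ℚ) : IsAlgebraic ℤ x :=
  (IsFractionRing.isAlgebraic_iff ℤ ℚ (AlgebraicClosure ℚ)).mpr
    (Algebra.IsAlgebraic.isAlgebraic x)

/-- The ring of all algebraic integers. -/
noncomputable abbrev Zbar : Subalgebra ℤ (AlgebraicClosure ℚ) := integralClosure ℤ (AlgebraicClosure ℚ)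

/-- The absolute Galois group of `ℚ`. -/
abbrev GQ : Type := AlgebraicClosure ℚ ≃ₐ[ℚ] AlgebraicClosure ℚ

theorem isInvariant_Zbar : Algebra.IsInvariant ℤ Zbar GQ := by
  refine ⟨fun b hb => ?_⟩
  have h1 : (b : AlgebraicClosure ℚ) ∈ Set.range (algebraMap ℚ (AlgebraicClosure ℚ)) := by
    rw [InfiniteGalois.mem_range_algebraMap_iff_fixed]
    intro f
    have := congrArg (Subtype.val) (hb f)
    exact this
  obtain ⟨q, hq⟩ := h1
  have h2 : IsIntegral ℤ q := by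
    have h3 : IsIntegral ℤ (algebraMap ℚ (AlgebraicClosure ℚ) q) := hq ▸ b.2
    exact (isIntegral_algebraMap_iff (algebraMap ℚ (AlgebraicClosure ℚ)).injective).mp h3
  obtain ⟨n, hn⟩ := IsIntegrallyClosed.algebraMap_eq_of_integral h2
  refine ⟨n, ?_⟩
  apply Subtype.ext
  rw [← hq, ← hn]
  simp

theorem continuousSMul_Zbar [TopologicalSpace Zbar] [DiscreteTopology Zbar] :
    ContinuousSMul GQ Zbar := by
  rw [continuousSMul_iff_stabilizer_isOpen]
  intro b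
  have h := stabilizer_isOpen_of_isIntegral (K := ℚ) (L := AlgebraicClosure ℚ)
    (b : AlgebraicClosure ℚ)
  convert h using 1
  ext g
  simp only [SetLike.mem_coe, MulAction.mem_stabilizer_iff]
  constructor
  · intro hg
    exact congrArg Subtype.val hg
  · intro hg
    exact Subtype.ext hg

open scoped Pointwise in
theorem exists_stabilizer_frob (ℓ : ℕ) (hℓ : ℓ.Prime) :
    ∃ (Q : Ideal Zbar) (σ : GQ), Q.IsMaximal ∧ ((ℓ : ℕ) : Zbar) ∈ Q ∧
      (∀ b : Zbar, σ • b ∈ Q ↔ b ∈ Q) ∧ ∀ b : Zbar, σ • b - b ^ ℓ ∈ Q := by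
  classical
  let P : Ideal ℤ := Ideal.span {(ℓ : ℤ)}
  haveI hPmax : P.IsMaximal :=
    PrincipalIdealRing.isMaximal_of_irreducible (Nat.prime_iff_prime_int.mp hℓ).irreducible
  obtain ⟨Q, hQmax, hQover⟩ := Ideal.exists_maximal_ideal_liesOver_of_isIntegral (S := Zbar) P
  letI : TopologicalSpace Zbar := ⊥
  haveI : DiscreteTopology Zbar := ⟨rfl⟩
  haveI := continuousSMul_Zbar
  haveI := isInvariant_Zbar
  letI := Ideal.Quotient.field P
  letI := Ideal.Quotient.field Q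
  haveI : Finite (ℤ ⧸ P) := Nat.finite_of_card_ne_zero (by
    rw [Int.card_ideal_quot]; exact hℓ.ne_zero)
  letI : Fintype (ℤ ⧸ P) := Fintype.ofFinite _
  haveI : Algebra.IsAlgebraic (ℤ ⧸ P) (Zbar ⧸ Q) := Algebra.IsIntegral.isAlgebraic
  let frob := FiniteField.frobeniusAlgEquivOfAlgebraic (ℤ ⧸ P) (Zbar ⧸ Q)
  obtain ⟨⟨σ, hσ⟩, hσfrob⟩ :=
    Ideal.Quotient.stabilizerHom_surjective_of_profinite (G := GQ) P Q frob
  have hcard : Fintype.card (ℤ ⧸ P) = ℓ := by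
    rw [← Nat.card_eq_fintype_card]; exact Int.card_ideal_quot ℓ
  refine ⟨Q, σ, hQmax, ?_, ?_, ?_⟩
  · have h1 : (ℓ : ℤ) ∈ P := Ideal.subset_span rfl
    have h2 : algebraMap ℤ Zbar (ℓ : ℤ) ∈ Q := by
      rw [hQover.over] at h1
      exact h1
    simpa using h2
  · intro b
    have hσ' : σ • Q = Q := hσ
    constructor
    · intro h
      rw [← hσ'] at h
      exact (Ideal.smul_mem_pointwise_smul_iff).mp h
    · intro h
      rw [← hσ']
      exact (Ideal.smul_mem_pointwise_smul_iff).mpr h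
  · intro b
    have h1 := congrArg (fun f => f (Ideal.Quotient.mk Q b)) hσfrob
    simp only [Ideal.Quotient.stabilizerHom_apply] at h1
    have h1' : Ideal.Quotient.mk Q (σ • b) = frob (Ideal.Quotient.mk Q b) := h1
    rw [← Ideal.Quotient.eq]
    rw [h1']
    change (Ideal.Quotient.mk Q b) ^ (Fintype.card (ℤ ⧸ P)) = _
    rw [hcard, map_pow]

section transfer

variable (V : ValuationSubring (AlgebraicClosure ℚ)) (Q : Ideal Zbar)

theorem inv_mem_of_not_mem_nonunits {x : AlgebraicClosure ℚ} (hx : x ∉ V.nonunits) :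
    x ≠ 0 ∧ x⁻¹ ∈ V := by
  rw [ValuationSubring.mem_nonunits_iff_or] at hx
  push Not at hx
  exact hx

theorem not_mem_nonunits_of_not_mem [hQ : Q.IsMaximal]
    (hQV : ∀ q ∈ Q, (q : AlgebraicClosure ℚ) ∈ V.nonunits) (s : Zbar) (hs : s ∉ Q) :
    (s : AlgebraicClosure ℚ) ∉ V.nonunits := by
  intro hmem
  obtain ⟨y, i, hi, hyi⟩ := hQ.exists_inv hs
  have h1 : (y : AlgebraicClosure ℚ) * (s : AlgebraicClosure ℚ) + (i : AlgebraicClosure ℚ) = 1 := by
    have := congrArg (Subtype.val) hyi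
    simpa using this
  have hy : (y : AlgebraicClosure ℚ) ∈ V := mem_valuationSubring_of_isIntegral V y.2
  have h2 : (1 : AlgebraicClosure ℚ) ∈ V.nonunits := by
    rw [← h1]
    refine V.nonunits.add_mem ?_ (hQV i hi)
    rw [mul_comm]
    exact mul_mem_nonunits_of_mem V hmem hy
  rw [ValuationSubring.mem_nonunits_iff, map_one] at h2
  exact lt_irrefl _ h2

theorem map_mem_of_stabilizer [hQ : Q.IsMaximal] {ℓ : ℕ} (hℓ : ℓ.Prime)
    (hℓV : ((ℓ : ℕ) : AlgebraicClosure ℚ) ∈ V.nonunits)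
    (hQV : ∀ q ∈ Q, (q : AlgebraicClosure ℚ) ∈ V.nonunits) (τ : GQ)
    (hτ : ∀ b : Zbar, τ • b ∈ Q ↔ b ∈ Q) {x : AlgebraicClosure ℚ} (hx : x ∈ V) : τ x ∈ V := by
  obtain ⟨s, hs_int, hs_nu, hsx_int⟩ :=
    exists_integral_mul V hℓ hℓV hx (isAlgebraic_int_Qbar x)
  let s' : Zbar := ⟨s, hs_int⟩
  let b' : Zbar := ⟨s * x, hsx_int⟩
  have hs'Q : s' ∉ Q := fun h => hs_nu (hQV s' h)
  have hτs'Q : τ • s' ∉ Q := fun h => hs'Q ((hτ s').mp h)
  have h1 : ((τ • s' : Zbar) : AlgebraicClosure ℚ) ∉ V.nonunits :=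
    not_mem_nonunits_of_not_mem V Q hQV _ hτs'Q
  have h1' : τ s ∉ V.nonunits := h1
  obtain ⟨hne, hinv⟩ := inv_mem_of_not_mem_nonunits V h1'
  have h2 : τ (s * x) ∈ V :=
    mem_valuationSubring_of_isIntegral V (τ • b' : Zbar).2
  have h3 : τ x = (τ s)⁻¹ * τ (s * x) := by
    rw [map_mul, ← mul_assoc, inv_mul_cancel₀ hne, one_mul]
  rw [h3]
  exact V.mul_mem _ _ hinv h2

theorem frob_congr [hQ : Q.IsMaximal] {ℓ : ℕ} (hℓ : ℓ.Prime)
    (hℓV : ((ℓ : ℕ) : AlgebraicClosure ℚ) ∈ V.nonunits)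
    (hQV : ∀ q ∈ Q, (q : AlgebraicClosure ℚ) ∈ V.nonunits) (σ : GQ)
    (hσ : ∀ b : Zbar, σ • b ∈ Q ↔ b ∈ Q) (hfrob : ∀ b : Zbar, σ • b - b ^ ℓ ∈ Q)
    {x : AlgebraicClosure ℚ} (hx : x ∈ V) : σ x - x ^ ℓ ∈ V.nonunits := by
  obtain ⟨s, hs_int, hs_nu, hsx_int⟩ :=
    exists_integral_mul V hℓ hℓV hx (isAlgebraic_int_Qbar x)
  let s' : Zbar := ⟨s, hs_int⟩
  let b' : Zbar := ⟨s * x, hsx_int⟩
  have hσx : σ x ∈ V := map_mem_of_stabilizer V Q hℓ hℓV hQV σ hσ hx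
  have h1 : σ s - s ^ ℓ ∈ V.nonunits := hQV _ (hfrob s')
  have h2 : σ (s * x) - (s * x) ^ ℓ ∈ V.nonunits := hQV _ (hfrob b')
  have hsV : s ∈ V := mem_valuationSubring_of_isIntegral V hs_int
  have hsl_nu : s ^ ℓ ∉ V.nonunits := by
    intro h
    rw [ValuationSubring.mem_nonunits_iff, map_pow] at h
    rw [ValuationSubring.mem_nonunits_iff] at hs_nu
    have h3 : V.valuation s = 1 :=
      le_antisymm ((V.valuation_le_one_iff s).mpr hsV) (not_lt.mp hs_nu)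
    rw [h3, one_pow] at h
    exact lt_irrefl _ h
  obtain ⟨hne, hinv⟩ := inv_mem_of_not_mem_nonunits V hsl_nu
  have h4 : s ^ ℓ * (σ x - x ^ ℓ) = (σ (s * x) - (s * x) ^ ℓ) - (σ s - s ^ ℓ) * σ x := by
    rw [map_mul]; ring
  have h5 : s ^ ℓ * (σ x - x ^ ℓ) ∈ V.nonunits := by
    rw [h4]
    exact V.nonunits.sub_mem h2 (mul_mem_nonunits_of_mem V h1 hσx)
  have h6 : σ x - x ^ ℓ = (s ^ ℓ * (σ x - x ^ ℓ)) * (s ^ ℓ)⁻¹ := by
    field_simp
  rw [h6]
  exact mul_mem_nonunits_of_mem V h5 hinv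

end transfer

open scoped Pointwise in
/-- **Existence of Frobenius elements**: for every rational prime `ℓ` there are a valuation
subring of `AlgebraicClosure ℚ` above `ℓ` and a Frobenius element at it in the absolute
Galois group of `ℚ`. -/
theorem exists_frobenius (ℓ : ℕ) (hℓ : ℓ.Prime) :
    ∃ (A : ValuationSubring (AlgebraicClosure ℚ))
      (σ : AlgebraicClosure ℚ ≃ₐ[ℚ] AlgebraicClosure ℚ),
      A.LiesOverPrime ℓ ∧ A.IsFrobeniusAt σ ℓ := by
  obtain ⟨Q, σ, hQmax, hℓQ, hσQ, hfrob⟩ := exists_stabilizer_frob ℓ hℓ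
  obtain ⟨V, -, hQV'⟩ :=
    Ideal.image_subset_nonunits_valuationSubring (A := Zbar.toSubring) Q hQmax.ne_top
  have hQV : ∀ q ∈ Q, (q : AlgebraicClosure ℚ) ∈ V.nonunits := fun q hq =>
    hQV' ⟨q, hq, rfl⟩
  have hℓV : ((ℓ : ℕ) : AlgebraicClosure ℚ) ∈ V.nonunits := by
    have := hQV _ hℓQ
    simpa using this
  have hσinv : ∀ b : Zbar, σ⁻¹ • b ∈ Q ↔ b ∈ Q := by
    intro b
    have := hσQ (σ⁻¹ • b)
    rw [smul_inv_smul] at this
    exact this.symm
  have hσV : σ ∈ V.decompositionSubgroup ℚ := by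
    rw [MulAction.mem_stabilizer_iff]
    apply ValuationSubring.ext
    intro x
    rw [ValuationSubring.mem_pointwise_smul_iff_inv_smul_mem]
    constructor
    · intro h
      have := map_mem_of_stabilizer V Q hℓ hℓV hQV σ hσQ h
      have h2 : σ (σ⁻¹ • x) = x := by
        change σ • (σ⁻¹ • x) = x
        rw [smul_inv_smul]
      rwa [h2] at this
    · intro h
      exact map_mem_of_stabilizer V Q hℓ hℓV hQV σ⁻¹ hσinv h
  refine ⟨V, σ, hℓV, hσV, ?_⟩
  intro x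
  obtain ⟨a, rfl⟩ := IsLocalRing.residue_surjective x
  rw [← IsLocalRing.ResidueField.residue_smul, ← map_pow, ← sub_eq_zero, ← map_sub,
    IsLocalRing.residue_eq_zero_iff, ← ValuationSubring.coe_mem_nonunits_iff]
  exact frob_congr V Q hℓ hℓV hQV σ hσQ hfrob a.2

end Fermat.Agent.S54
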