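import Mathlib

set_option autoImplicit false

open Polynomial

namespace Fermat.Agent.S54.H69

/-- Kaplansky: over an integrally closed local domain `R` with fraction field `K`, any `u : K`
that is a root of a polynomial with a unit coefficient satisfies `u ∈ R` or `u⁻¹ ∈ R`. -/
theorem exists_algebraMap_eq_or_inv_aux {R K : Type*} [CommRing R] [IsDomain R] [IsLocalRing R]
    [IsIntegrallyClosed R] [Field K] [Algebra R K] [IsFractionRing R K] :
    ∀ (n : ℕ) (p : R[X]) (u : K), p.natDegree ≤ n → aeval u p = 0 → (∃ i, IsUnit (p.coeff i)) →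
      (∃ r : R, algebraMap R K r = u) ∨ (∃ r : R, algebraMap R K r = u⁻¹) := by
  intro n
  induction n with
  | zero =>
    intro p u hdeg hp ⟨i, hi⟩
    exfalso
    have hpC : p = C (p.coeff 0) := eq_C_of_natDegree_le_zero hdeg
    rw [hpC, aeval_C] at hp
    have h0 : p.coeff 0 = 0 := by
      have := (FaithfulSMul.algebraMap_injective R K)
      exact this (by rw [hp, map_zero])
    have : p = 0 := by rw [hpC, h0, map_zero]
    rw [this, coeff_zero] at hi
    exact not_isUnit_zero hi
  | succ n ih =>
    intro p u hdeg hp hunit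
    by_cases hlt : p.natDegree ≤ n
    · exact ih p u hlt hp hunit
    have hdeg' : p.natDegree = n + 1 := le_antisymm hdeg (Nat.lt_of_not_le hlt)
    -- `a u` is integral, hence in `R`
    have hint : IsIntegral R (p.leadingCoeff • u) := isIntegral_leadingCoeff_smul p u hp
    obtain ⟨b, hb⟩ := IsIntegrallyClosed.algebraMap_eq_of_integral hint
    by_cases ha : IsUnit p.leadingCoeff
    · left
      obtain ⟨a', ha'⟩ := ha
      refine ⟨↑a'⁻¹ * b, ?_⟩
      rw [map_mul, hb, Algebra.smul_def, ← ha', ← mul_assoc, ← map_mul]
      simp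
    -- new polynomial of smaller degree
    set q : R[X] := p.eraseLead + C b * X ^ n with hq
    have hqdeg : q.natDegree ≤ n := by
      refine (natDegree_add_le _ _).trans (max_le ?_ ?_)
      · have := eraseLead_natDegree_le p
        omega
      · exact natDegree_C_mul_X_pow_le b n
    have hqu : aeval u q = 0 := by
      have h1 : aeval u p.eraseLead = - (algebraMap R K p.leadingCoeff * u ^ (n + 1)) := by
        have := congrArg (aeval u) (eraseLead_add_C_mul_X_pow p)
        rw [map_add, hp, map_mul, aeval_C, aeval_X_pow, hdeg'] at this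
        linear_combination this
      rw [hq, map_add, h1, map_mul, aeval_C, aeval_X_pow, hb, Algebra.smul_def]
      ring
    by_cases hqunit : ∃ i, IsUnit (q.coeff i)
    · exact ih q u hqdeg hqu hqunit
    -- all coefficients of `q` are non-units
    push Not at hqunit
    obtain ⟨i, hi⟩ := hunit
    have hqcoeff : ∀ j, j ≠ n → j ≠ n + 1 → q.coeff j = p.coeff j := by
      intro j hj hj'
      rw [hq, coeff_add, coeff_C_mul, coeff_X_pow, if_neg hj, mul_zero, add_zero,
        eraseLead_coeff, hdeg', if_neg hj']
    have hqn : q.coeff n = p.coeff n + b := by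
      rw [hq, coeff_add, coeff_C_mul, coeff_X_pow, if_pos rfl, mul_one,
        eraseLead_coeff, hdeg', if_neg (by omega)]
    have hin : i = n := by
      by_contra hne
      by_cases hi' : i = n + 1
      · apply ha
        rw [leadingCoeff, hdeg', ← hi']
        exact hi
      · exact hqunit i (by rw [hqcoeff i hne hi']; exact hi)
    subst hin
    -- `b` is a unit
    have hbunit : IsUnit b := by
      by_contra hb'
      have h1 : p.coeff i + b ∈ IsLocalRing.maximalIdeal R := by
        rw [IsLocalRing.mem_maximalIdeal, mem_nonunits_iff, ← hqn]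
        exact hqunit i
      have h2 : b ∈ IsLocalRing.maximalIdeal R := by
        rwa [IsLocalRing.mem_maximalIdeal, mem_nonunits_iff]
      have h3 : p.coeff i ∈ IsLocalRing.maximalIdeal R := by
        have := Ideal.sub_mem _ h1 h2
        simpa using this
      rw [IsLocalRing.mem_maximalIdeal, mem_nonunits_iff] at h3
      exact h3 hi
    right
    obtain ⟨b', hb'⟩ := hbunit
    refine ⟨p.leadingCoeff * ↑b'⁻¹, ?_⟩
    have hbK : algebraMap R K b ≠ 0 := by
      rw [← hb']
      exact (b'.isUnit.map (algebraMap R K)).ne_zero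
    have hu : u ≠ 0 := by
      rintro rfl
      rw [smul_zero] at hb
      exact hbK hb
    have hinv : algebraMap R K (↑b'⁻¹ : R) = (algebraMap R K b)⁻¹ := by
      rw [← hb']
      exact eq_inv_of_mul_eq_one_left (by rw [← map_mul]; simp)
    rw [map_mul, hinv, hb, Algebra.smul_def]
    have hlc : algebraMap R K p.leadingCoeff ≠ 0 := by
      intro h0
      rw [Algebra.smul_def, h0, zero_mul] at hb
      exact hbK hb
    field_simp

theorem exists_algebraMap_eq_or_inv {R K : Type*} [CommRing R] [IsDomain R] [IsLocalRing R]
    [IsIntegrallyClosed R] [Field K] [Algebra R K] [IsFractionRing R K]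
    (p : R[X]) (u : K) (hp : aeval u p = 0) (hunit : ∃ i, IsUnit (p.coeff i)) :
    (∃ r : R, algebraMap R K r = u) ∨ (∃ r : R, algebraMap R K r = u⁻¹) :=
  exists_algebraMap_eq_or_inv_aux p.natDegree p u le_rfl hp hunit

end Fermat.Agent.S54.H69
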