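import Mathlib
import Fermat.Agent.S54.H69_Kaplansky

set_option autoImplicit false

open scoped Pointwise

namespace Fermat.Agent.S54.H69

noncomputable section

local notation "Qb" => AlgebraicClosure ℚ
local notation "GQ" => (AlgebraicClosure ℚ ≃ₐ[ℚ] AlgebraicClosure ℚ)
local notation "BQ" => integralClosure ℤ (AlgebraicClosure ℚ)

local instance isAlgebraicQb : Algebra.IsAlgebraic ℚ (AlgebraicClosure ℚ) :=
  AlgebraicClosure.isAlgebraic ℚ
local instance isAlgClosureQb : IsAlgClosure ℚ (AlgebraicClosure ℚ) :=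
  ⟨inferInstance, inferInstance⟩
local instance isGaloisQb : IsGalois ℚ (AlgebraicClosure ℚ) := IsSepClosure.isGalois

theorem isAlgebraicIntQb : Algebra.IsAlgebraic ℤ (AlgebraicClosure ℚ) :=
  (IsFractionRing.comap_isAlgebraic_iff (A := ℤ) (K := ℚ) (C := AlgebraicClosure ℚ)).mpr
    inferInstance

local instance isFractionRingBQ : IsFractionRing BQ Qb :=
  haveI := isAlgebraicIntQb
  integralClosure.isFractionRing_of_algebraic (A := ℤ) (L := Qb)
    (fun x hx => by simpa using hx)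

local instance isIntegrallyClosedBQ : IsIntegrallyClosed BQ :=
  (isIntegrallyClosed_iff_isIntegrallyClosedIn Qb).mpr inferInstance

theorem isInvariantBQ : Algebra.IsInvariant ℤ BQ GQ := by
  refine ⟨fun b hb => ?_⟩
  have hfix : ∀ g : GQ, g (b : Qb) = (b : Qb) := fun g => congrArg Subtype.val (hb g)
  obtain ⟨r, hr⟩ := (InfiniteGalois.mem_range_algebraMap_iff_fixed (k := ℚ) (b : Qb)).mpr hfix
  have hint : IsIntegral ℤ r := by
    have h := b.2
    rw [← hr] at h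
    exact (isIntegral_algebraMap_iff (algebraMap ℚ Qb).injective).mp h
  obtain ⟨n, hn⟩ := IsIntegrallyClosed.algebraMap_eq_of_integral hint
  refine ⟨n, Subtype.ext ?_⟩
  rw [← hr, ← hn]
  simp

theorem exists_pow_eq_BQ (ℓ : ℕ) (hℓ : 0 < ℓ) (b : BQ) : ∃ c : BQ, c ^ ℓ = b := by
  obtain ⟨z, hz⟩ := IsAlgClosed.exists_pow_nat_eq (b : Qb) hℓ
  have hzint : IsIntegral ℤ z := by
    have h : IsIntegral ℤ (z ^ ℓ) := hz ▸ b.2
    exact IsIntegral.of_pow hℓ h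
  exact ⟨⟨z, hzint⟩, Subtype.ext hz⟩

theorem exists_frob_BQ (ℓ : ℕ) (hℓ : ℓ.Prime) (Q : Ideal BQ) [Q.IsPrime] (hQ : (ℓ : BQ) ∈ Q) :
    ∃ σ : GQ, σ • Q = Q ∧ ∀ b : BQ, σ • b - b ^ ℓ ∈ Q := by
  have : Fact ℓ.Prime := ⟨hℓ⟩
  let _ : TopologicalSpace BQ := ⊥
  have : DiscreteTopology BQ := ⟨rfl⟩
  have : ContinuousSMul GQ BQ := by
    rw [continuousSMul_iff_stabilizer_isOpen]
    intro b
    convert stabilizer_isOpen_of_isIntegral (K := ℚ) (L := Qb) (b : Qb) using 1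
    ext g
    simp [MulAction.mem_stabilizer_iff, Subtype.ext_iff]
  have := isInvariantBQ
  set P : Ideal ℤ := Q.under ℤ with hP
  have hℓP : (ℓ : ℤ) ∈ P := by
    rw [hP, Ideal.under_def, Ideal.mem_comap]
    simpa using hQ
  have hfermat : ∀ a : ℤ ⧸ P, a ^ ℓ = a := by
    intro a
    obtain ⟨n, rfl⟩ := Ideal.Quotient.mk_surjective a
    rw [← map_pow, Ideal.Quotient.eq]
    have hdvd : (ℓ : ℤ) ∣ n ^ ℓ - n := by
      rw [← ZMod.intCast_zmod_eq_zero_iff_dvd]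
      push_cast
      rw [ZMod.pow_card, sub_self]
    obtain ⟨k, hk⟩ := hdvd
    rw [hk]
    exact Ideal.mul_mem_right _ _ hℓP
  have : CharP (BQ ⧸ Q) ℓ := by
    rw [CharP.charP_iff_prime_eq_zero hℓ]
    have : ((ℓ : BQ) : BQ ⧸ Q) = 0 := Ideal.Quotient.eq_zero_iff_mem.mpr hQ
    simpa using this
  have hinj : Function.Injective (frobenius (BQ ⧸ Q) ℓ) := frobenius_inj (BQ ⧸ Q) ℓ
  have hsurj : Function.Surjective (frobenius (BQ ⧸ Q) ℓ) := by
    intro x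
    obtain ⟨b, rfl⟩ := Ideal.Quotient.mk_surjective x
    obtain ⟨c, hc⟩ := exists_pow_eq_BQ ℓ hℓ.pos b
    exact ⟨Ideal.Quotient.mk Q c, by rw [frobenius_def, ← map_pow, hc]⟩
  let frobHom : (BQ ⧸ Q) →ₐ[ℤ ⧸ P] (BQ ⧸ Q) :=
    { toRingHom := frobenius (BQ ⧸ Q) ℓ
      commutes' := fun a => by
        show frobenius (BQ ⧸ Q) ℓ (algebraMap (ℤ ⧸ P) (BQ ⧸ Q) a) = _
        rw [frobenius_def, ← map_pow, hfermat] }
  let frob : (BQ ⧸ Q) ≃ₐ[ℤ ⧸ P] (BQ ⧸ Q) := AlgEquiv.ofBijective frobHom ⟨hinj, hsurj⟩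
  obtain ⟨σ, hσ⟩ := Ideal.Quotient.stabilizerHom_surjective_of_profinite (G := GQ) P Q frob
  refine ⟨σ.1, σ.2, fun b => ?_⟩
  have h := DFunLike.congr_fun hσ (Ideal.Quotient.mk Q b)
  rw [Ideal.Quotient.stabilizerHom_apply] at h
  rw [← Ideal.Quotient.eq, map_pow]
  exact h

end

end Fermat.Agent.S54.H69
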