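import Mathlib
import Fermat.Prelude.Def_EllipticCurve_FrobeniusTrace
import Fermat.Agent.S54.H69_Kaplansky
import Fermat.Agent.S54.H69_FrobB

set_option autoImplicit false

open scoped Pointwise
open Polynomial

namespace Fermat.Agent.S54.H69

noncomputable section

local notation "Qb" => AlgebraicClosure ℚ
local notation "GQ" => (AlgebraicClosure ℚ ≃ₐ[ℚ] AlgebraicClosure ℚ)
local notation "BQ" => integralClosure ℤ (AlgebraicClosure ℚ)

local instance isFractionRingBQ' : IsFractionRing BQ Qb := isFractionRingBQ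
local instance isIntegrallyClosedBQ' : IsIntegrallyClosed BQ := isIntegrallyClosedBQ

section ValSub

variable (Q : Ideal BQ) [Q.IsPrime]

theorem primeCompl_le : Q.primeCompl ≤ nonZeroDivisors BQ :=
  Ideal.primeCompl_le_nonZeroDivisors Q

/-- The localization of `BQ` at `Q`, as a subalgebra of `Qb`. -/
def locSub : Subalgebra BQ Qb :=
  Localization.subalgebra.ofField Qb Q.primeCompl (primeCompl_le Q)

theorem mem_locSub_iff (x : Qb) :
    x ∈ locSub Q ↔ ∃ (a s : BQ), s ∉ Q ∧ x = (a : Qb) * (s : Qb)⁻¹ := by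
  constructor
  · rintro ⟨a, s, hs, rfl⟩
    exact ⟨a, s, hs, rfl⟩
  · rintro ⟨a, s, hs, rfl⟩
    exact ⟨a, s, hs, rfl⟩

theorem intCast_not_mem {ℓ : ℕ} (hℓ : ℓ.Prime) (hQ : (ℓ : BQ) ∈ Q) {n : ℤ} (hn : ¬ (ℓ : ℤ) ∣ n) :
    (n : BQ) ∉ Q := by
  intro hmem
  have hcop : IsCoprime n (ℓ : ℤ) := by
    have h := (Int.prime_iff_natAbs_prime.mpr (by simpa using hℓ) : Prime (ℓ : ℤ))
    exact ((h.coprime_iff_not_dvd).mpr hn).symm
  obtain ⟨a, b, hab⟩ := hcop
  have h1 : ((a * n + b * ℓ : ℤ) : BQ) ∈ Q := by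
    push_cast
    exact Q.add_mem (Q.mul_mem_left _ hmem) (Q.mul_mem_left _ hQ)
  rw [hab, Int.cast_one] at h1
  exact (Ideal.IsPrime.ne_top ‹Q.IsPrime›) ((Ideal.eq_top_iff_one Q).mpr h1)

theorem mem_or_inv_mem_locSub {ℓ : ℕ} (hℓ : ℓ.Prime) (hQ : (ℓ : BQ) ∈ Q) (u : Qb) :
    u ∈ locSub Q ∨ u⁻¹ ∈ locSub Q := by
  have hloc : IsLocalization.AtPrime (locSub Q) Q :=
    Localization.subalgebra.isLocalization_ofField Qb Q.primeCompl (primeCompl_le Q)
  have : IsLocalRing (locSub Q) := IsLocalization.AtPrime.isLocalRing (locSub Q) Q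
  have : IsIntegrallyClosed (locSub Q) :=
    isIntegrallyClosed_of_isLocalization (locSub Q) Q.primeCompl (primeCompl_le Q)
  obtain ⟨f, hf0, hfu⟩ := isAlgebraicIntQb.isAlgebraic u
  have hg : aeval u f.primPart = 0 := by
    have h := f.eq_C_content_mul_primPart
    rw [h, map_mul, aeval_C] at hfu
    have hc : algebraMap ℤ Qb f.content ≠ 0 := by
      rw [Ne, map_eq_zero_iff _ (FaithfulSMul.algebraMap_injective ℤ Qb)]
      exact content_eq_zero_iff.not.mpr hf0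
    exact (mul_eq_zero.mp hfu).resolve_left hc
  have hprim : f.primPart.IsPrimitive := f.isPrimitive_primPart
  obtain ⟨i, hi⟩ : ∃ i, ¬ (ℓ : ℤ) ∣ f.primPart.coeff i := by
    by_contra h
    push Not at h
    have h1 := hprim (ℓ : ℤ) ((Polynomial.C_dvd_iff_dvd_coeff _ _).mpr h)
    rw [Int.isUnit_iff_natAbs_eq] at h1
    exact hℓ.one_lt.ne' (by simpa using h1)
  have hunit : IsUnit ((f.primPart.map (algebraMap ℤ (locSub Q))).coeff i) := by
    rw [coeff_map, IsScalarTower.algebraMap_apply ℤ BQ (locSub Q)]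
    have hnm : algebraMap ℤ BQ (f.primPart.coeff i) ∈ Q.primeCompl := by
      have := intCast_not_mem Q hℓ hQ hi
      simpa using this
    exact IsLocalization.map_units (locSub Q) (⟨_, hnm⟩ : Q.primeCompl)
  have key := exists_algebraMap_eq_or_inv (R := locSub Q) (K := Qb)
    (f.primPart.map (algebraMap ℤ (locSub Q))) u (by rw [aeval_map_algebraMap]; exact hg)
    ⟨i, hunit⟩
  rcases key with ⟨r, hr⟩ | ⟨r, hr⟩
  · left
    rw [← hr]
    exact r.2
  · right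
    rw [← hr]
    exact r.2

/-- The valuation subring of `Qb` attached to a prime `Q` of `BQ` over `ℓ`. -/
def valSub {ℓ : ℕ} (hℓ : ℓ.Prime) (hQ : (ℓ : BQ) ∈ Q) : ValuationSubring Qb :=
  ValuationSubring.ofSubring (locSub Q).toSubring (mem_or_inv_mem_locSub Q hℓ hQ)

theorem mem_valSub_iff {ℓ : ℕ} (hℓ : ℓ.Prime) (hQ : (ℓ : BQ) ∈ Q) (x : Qb) :
    x ∈ valSub Q hℓ hQ ↔ ∃ (a s : BQ), s ∉ Q ∧ x = (a : Qb) * (s : Qb)⁻¹ := by
  rw [valSub, ValuationSubring.mem_ofSubring, Subalgebra.mem_toSubring, mem_locSub_iff]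

theorem mem_nonunits_valSub {ℓ : ℕ} (hℓ : ℓ.Prime) (hQ : (ℓ : BQ) ∈ Q) {a s : BQ}
    (ha : a ∈ Q) (hs : s ∉ Q) : (a : Qb) * (s : Qb)⁻¹ ∈ (valSub Q hℓ hQ).nonunits := by
  rw [ValuationSubring.mem_nonunits_iff_or]
  by_cases h0 : (a : Qb) * (s : Qb)⁻¹ = 0
  · exact Or.inl h0
  right
  intro hinv
  obtain ⟨a', s', hs', h⟩ := (mem_valSub_iff Q hℓ hQ _).mp hinv
  have ha0 : (a : Qb) ≠ 0 := left_ne_zero_of_mul h0
  have hs0 : (s : Qb) ≠ 0 := by
    intro h'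
    rw [h', inv_zero, mul_zero] at h0
    exact h0 rfl
  have hs'0 : (s' : Qb) ≠ 0 := by
    intro h'
    apply hs'
    have : s' = 0 := Subtype.ext h'
    rw [this]
    exact Q.zero_mem
  have heq : (s : Qb) * (s' : Qb) = (a : Qb) * (a' : Qb) := by
    rw [mul_inv, inv_inv] at h
    field_simp at h
    linear_combination h
  have heq' : s * s' = a * a' := Subtype.ext (by simpa using heq)
  have hmem : s * s' ∈ Q := heq' ▸ Q.mul_mem_right _ ha
  rcases (‹Q.IsPrime›).mem_or_mem hmem with h | h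
  · exact hs h
  · exact hs' h

theorem smul_mem_valSub {ℓ : ℕ} (hℓ : ℓ.Prime) (hQ : (ℓ : BQ) ∈ Q) (τ : GQ) (hτ : τ • Q = Q)
    {x : Qb} (hx : x ∈ valSub Q hℓ hQ) : τ x ∈ valSub Q hℓ hQ := by
  obtain ⟨a, s, hs, rfl⟩ := (mem_valSub_iff Q hℓ hQ x).mp hx
  rw [mem_valSub_iff]
  refine ⟨τ • a, τ • s, ?_, ?_⟩
  · intro h
    have h' : τ • s ∈ τ • Q := hτ.symm ▸ h
    rw [Ideal.smul_mem_pointwise_smul_iff] at h'
    exact hs h'
  · rw [map_mul, map_inv₀]
    rfl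

end ValSub

theorem exists_isFrobeniusAt (ℓ : ℕ) (hℓ : ℓ.Prime) :
    ∃ (A : ValuationSubring (AlgebraicClosure ℚ))
      (σ : AlgebraicClosure ℚ ≃ₐ[ℚ] AlgebraicClosure ℚ),
      A.LiesOverPrime ℓ ∧ A.IsFrobeniusAt σ ℓ := by
  have hprime : (Ideal.span {(ℓ : ℤ)}).IsPrime :=
    (Ideal.span_singleton_prime (by exact_mod_cast hℓ.ne_zero)).mpr (Nat.prime_iff_prime_int.mp hℓ)
  obtain ⟨Q, hQp, hQc⟩ := Ideal.exists_ideal_over_prime_of_isIntegral_of_isDomain (S := BQ)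
    (Ideal.span {(ℓ : ℤ)}) (by
      rw [(RingHom.injective_iff_ker_eq_bot _).mp (FaithfulSMul.algebraMap_injective ℤ BQ)]
      exact bot_le)
  have hQ : (ℓ : BQ) ∈ Q := by
    have h : (ℓ : ℤ) ∈ Q.comap (algebraMap ℤ BQ) := hQc ▸ Ideal.mem_span_singleton_self _
    simpa using h
  obtain ⟨σ, hσQ, hσ⟩ := exists_frob_BQ ℓ hℓ Q hQ
  have h1 : (1 : BQ) ∉ Q := by
    rw [← Ideal.eq_top_iff_one]
    exact hQp.ne_top
  refine ⟨valSub Q hℓ hQ, σ, ?_, ?_⟩
  · show (ℓ : Qb) ∈ (valSub Q hℓ hQ).nonunits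
    have h := mem_nonunits_valSub Q hℓ hQ hQ h1
    simpa using h
  · have hσmem : σ ∈ (valSub Q hℓ hQ).decompositionSubgroup ℚ := by
      rw [MulAction.mem_stabilizer_iff]
      apply SetLike.ext
      intro x
      rw [ValuationSubring.mem_pointwise_smul_iff_inv_smul_mem]
      have hσinv : σ⁻¹ • Q = Q := by rw [inv_smul_eq_iff, hσQ]
      constructor
      · intro h
        have h' := smul_mem_valSub Q hℓ hQ σ hσQ h
        simpa using h'
      · intro h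
        exact smul_mem_valSub Q hℓ hQ σ⁻¹ hσinv h
    refine ⟨hσmem, fun x => ?_⟩
    obtain ⟨y, rfl⟩ := IsLocalRing.residue_surjective x
    rw [← IsLocalRing.ResidueField.residue_smul, ← map_pow, ← sub_eq_zero, ← map_sub,
      IsLocalRing.residue_eq_zero_iff, ← ValuationSubring.coe_mem_nonunits_iff]
    obtain ⟨a, s, hs, hy⟩ := (mem_valSub_iff Q hℓ hQ y).mp y.2
    have hcoe : (((⟨σ, hσmem⟩ : (valSub Q hℓ hQ).decompositionSubgroup ℚ) • y - y ^ ℓ :
        valSub Q hℓ hQ) : Qb) = σ (y : Qb) - (y : Qb) ^ ℓ := rfl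
    rw [hcoe, hy]
    have hN : (σ • a) * s ^ ℓ - a ^ ℓ * (σ • s) ∈ Q := by
      have e : (σ • a) * s ^ ℓ - a ^ ℓ * (σ • s) =
          (σ • a - a ^ ℓ) * s ^ ℓ - a ^ ℓ * (σ • s - s ^ ℓ) := by ring
      rw [e]
      exact Q.sub_mem (Q.mul_mem_right _ (hσ a)) (Q.mul_mem_left _ (hσ s))
    have hσs : σ • s ∉ Q := by
      intro h
      have h' : σ • s ∈ σ • Q := hσQ.symm ▸ h
      rw [Ideal.smul_mem_pointwise_smul_iff] at h'
      exact hs h'
    have hD : (σ • s) * s ^ ℓ ∉ Q := by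
      intro h
      rcases hQp.mem_or_mem h with h | h
      · exact hσs h
      · exact hs (hQp.mem_of_pow_mem _ h)
    have hfin := mem_nonunits_valSub Q hℓ hQ hN hD
    have hs0 : (s : Qb) ≠ 0 := by
      intro h'
      apply hs
      have : s = 0 := Subtype.ext h'
      rw [this]
      exact Q.zero_mem
    have hσs0 : σ (s : Qb) ≠ 0 := by
      rw [Ne, EmbeddingLike.map_eq_zero_iff]
      exact hs0
    have e : σ ((a : Qb) * (s : Qb)⁻¹) - ((a : Qb) * (s : Qb)⁻¹) ^ ℓ =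
        (((σ • a) * s ^ ℓ - a ^ ℓ * (σ • s) : BQ) : Qb) * ((((σ • s) * s ^ ℓ : BQ)) : Qb)⁻¹ := by
      have c1 : ((σ • a : BQ) : Qb) = σ (a : Qb) := rfl
      have c2 : ((σ • s : BQ) : Qb) = σ (s : Qb) := rfl
      have hspow : (s : Qb) ^ ℓ ≠ 0 := pow_ne_zero _ hs0
      push_cast
      rw [c1, c2, map_mul, map_inv₀, mul_pow, inv_pow]
      field_simp
    rw [e]
    exact hfin

end

end Fermat.Agent.S54.H69
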